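import Fermat.Agent.A2.H12.GSpec

/-!
# Cell A2 — route G: glue lemmas for the ALG assembly (helper12)

Elementary facts on sheets (`IsSheet`), charts and ring automorphisms.
-/

set_option autoImplicit false

namespace Fermat.Agent.A2.H12

open Polynomial
open Fermat.Agent.S18.H138 (chart baseField)

universe u

section Sheets

variable {R : Type u} [CommRing R] {K : Type u} [Field K] [Algebra R K]

theorem mul_mem_nonunits (W : ValuationSubring K) {a c : K} (ha : a ∈ W.nonunits) (hc : c ∈ W) :
    c * a ∈ W.nonunits := by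
  rw [ValuationSubring.mem_nonunits_iff] at ha ⊢
  rw [map_mul]
  have h1 : W.valuation c ≤ 1 := (W.valuation_le_one_iff c).2 hc
  calc W.valuation c * W.valuation a ≤ 1 * W.valuation a := by gcongr
    _ = W.valuation a := one_mul _
    _ < 1 := ha

theorem one_not_mem_nonunits (W : ValuationSubring K) : (1 : K) ∉ W.nonunits := by
  rw [ValuationSubring.mem_nonunits_iff, map_one]
  exact lt_irrefl _

/-- membership in a valuation subring in terms of its nonunits -/
theorem mem_iff_inv_not_mem_nonunits (W : ValuationSubring K) {b : K} (hb : b ≠ 0) :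
    b ∈ W ↔ b⁻¹ ∉ W.nonunits := by
  rw [ValuationSubring.inv_mem_nonunits_iff]
  constructor
  · intro h h'
    rcases h' with h' | h'
    · exact hb h'
    · exact h' h
  · intro h
    by_contra h'
    exact h (Or.inr h')

/-- nonunits of a comap along a ring homomorphism of fields -/
theorem mem_nonunits_comap {K' : Type*} [Field K'] (W : ValuationSubring K') (ψ : K →+* K')
    (b : K) : b ∈ (W.comap ψ).nonunits ↔ ψ b ∈ W.nonunits := by
  rw [ValuationSubring.mem_nonunits_iff_or, ValuationSubring.mem_nonunits_iff_or,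
    ValuationSubring.mem_comap, map_inv₀, map_eq_zero]

theorem IsSheet.not_dvd_one {w : R} {x : K} {W : ValuationSubring K} (hW : IsSheet w x W) :
    ¬ w ∣ 1 := by
  rintro ⟨c, hc⟩
  have h1 : algebraMap R K w * algebraMap R K c = 1 := by
    rw [← map_mul, ← hc, map_one]
  have h2 := mul_mem_nonunits W hW.2.2.1 (hW.1 c)
  rw [mul_comm, h1] at h2
  exact one_not_mem_nonunits W h2

theorem IsSheet.inv_mem {w : R} {x : K} {W : ValuationSubring K} (hW : IsSheet w x W) :
    x⁻¹ ∈ W := by
  have := hW.2.2.2 X ⟨1, by simpa using hW.not_dvd_one⟩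
  simpa using this

/-- An element integral over a subalgebra contained in a valuation subring lies in it. -/
theorem mem_of_isIntegral_of_le (W : ValuationSubring K) (A : Subalgebra R K)
    (hA : ∀ a ∈ A, a ∈ W) {c : K} (hc : IsIntegral A c) : c ∈ W := by
  let φ : A →+* W :=
    { toFun := fun a => ⟨a, hA a a.2⟩
      map_one' := rfl
      map_mul' := fun _ _ => rfl
      map_zero' := rfl
      map_add' := fun _ _ => rfl }
  have h1 : IsIntegral W ((RingHom.id K) c) :=
    IsIntegral.map_of_comp_eq (R := A) (S := K) (T := W) (U := K) φ (RingHom.id K)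
      (by ext; rfl) hc
  obtain ⟨y, hy⟩ := (IsIntegrallyClosed.isIntegral_iff (R := W) (K := K)).1 h1
  have : (y : K) = c := hy
  rw [← this]
  exact y.2

/-- The charts lie in every sheet. -/
theorem IsSheet.chart_le {w : R} {x : K} {W : ValuationSubring K} (hW : IsSheet w x W)
    {T : Set K} (hT : T ⊆ {x, x⁻¹}) {c : K} (hc : c ∈ chart R T) : c ∈ W := by
  refine mem_of_isIntegral_of_le W (Algebra.adjoin R T) ?_ hc
  intro a ha
  induction ha using Algebra.adjoin_induction with
  | mem y hy =>
    rcases hT hy with rfl | rfl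
    · exact hW.2.1
    · exact hW.inv_mem
  | algebraMap r => exact hW.1 r
  | add y z _ _ hy hz => exact W.add_mem _ _ hy hz
  | mul y z _ _ hy hz => exact W.mul_mem _ _ hy hz

/-- Transport of a sheet along a ring automorphism compatible with `R` and fixing `x`. -/
theorem IsSheet.comap {w : R} {x : K} {W : ValuationSubring K} (hW : IsSheet w x W)
    (ψ : K ≃+* K) (ρ : R ≃+* R) (hψR : ∀ r, ψ (algebraMap R K r) = algebraMap R K (ρ r))
    (hρw : ∀ r, w ∣ r ↔ w ∣ ρ r) (hψx : ψ x = x) :
    IsSheet w x (W.comap (ψ : K →+* K)) := by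
  refine ⟨?_, ?_, ?_, ?_⟩
  · intro r
    rw [ValuationSubring.mem_comap]
    change ψ (algebraMap R K r) ∈ W
    rw [hψR]
    exact hW.1 _
  · rw [ValuationSubring.mem_comap]
    change ψ x ∈ W
    rw [hψx]
    exact hW.2.1
  · rw [mem_nonunits_comap]
    change ψ (algebraMap R K w) ∈ W.nonunits
    rw [hψR]
    obtain ⟨c, hc⟩ := (hρw w).1 dvd_rfl
    rw [hc, map_mul, mul_comm]
    exact mul_mem_nonunits W hW.2.2.1 (hW.1 c)
  · intro P hP
    rw [ValuationSubring.mem_comap]
    change ψ ((aeval x P)⁻¹) ∈ W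
    have h1 : ψ (aeval x P) = aeval x (P.map (ρ : R →+* R)) := by
      rw [aeval_def, aeval_def, eval₂_map]
      have := Polynomial.hom_eval₂ P (algebraMap R K) (ψ : K →+* K) x
      rw [show (ψ : K →+* K) (eval₂ (algebraMap R K) x P) = ψ (eval₂ (algebraMap R K) x P)
        from rfl] at this
      rw [this]
      congr 1
      · ext r
        exact hψR r
    rw [map_inv₀, h1]
    apply hW.2.2.2
    obtain ⟨i, hi⟩ := hP
    refine ⟨i, ?_⟩
    rw [coeff_map]
    intro hdvd
    exact hi ((hρw _).2 hdvd)

/-- nonunits determine membership: automorphism version -/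
theorem mem_iff_of_nonunits_iff (ψ : K ≃+* K) (W W' : ValuationSubring K)
    (h : ∀ b, b ∈ W.nonunits ↔ ψ b ∈ W'.nonunits) : ∀ b, b ∈ W ↔ ψ b ∈ W' := by
  intro b
  by_cases hb : b = 0
  · subst hb
    simp [W.zero_mem, W'.zero_mem]
  · have hψb : ψ b ≠ 0 := by
      intro h0
      exact hb ((map_eq_zero_iff ψ ψ.injective).1 h0)
    rw [mem_iff_inv_not_mem_nonunits W hb, mem_iff_inv_not_mem_nonunits W' hψb, h b⁻¹, map_inv₀]

theorem nonunits_iff_of_mem_iff (ψ : K ≃+* K) (W W' : ValuationSubring K)
    (h : ∀ b, b ∈ W ↔ ψ b ∈ W') : ∀ b, b ∈ W.nonunits ↔ ψ b ∈ W'.nonunits := by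
  intro b
  rw [ValuationSubring.mem_nonunits_iff_or, ValuationSubring.mem_nonunits_iff_or, h b⁻¹,
    map_inv₀, map_eq_zero_iff ψ ψ.injective]

/-- A ring endomorphism compatible with `R` and mapping `T` into `R[T]` maps the chart into
itself. -/
theorem chart_map_mem {T : Set K} (ψ : K →+* K)
    (hψR : ∀ r : R, ∃ r' : R, ψ (algebraMap R K r) = algebraMap R K r')
    (hψT : ∀ t ∈ T, ψ t ∈ Algebra.adjoin R T) {b : K} (hb : b ∈ chart R T) :
    ψ b ∈ chart R T := by
  have hadj : ∀ a ∈ Algebra.adjoin R T, ψ a ∈ Algebra.adjoin R T := by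
    intro a ha
    induction ha using Algebra.adjoin_induction with
    | mem y hy => exact hψT y hy
    | algebraMap r =>
      obtain ⟨r', hr'⟩ := hψR r
      rw [hr']
      exact Subalgebra.algebraMap_mem _ _
    | add y z _ _ hy hz => rw [map_add]; exact Subalgebra.add_mem _ hy hz
    | mul y z _ _ hy hz => rw [map_mul]; exact Subalgebra.mul_mem _ hy hz
  let φ : Algebra.adjoin R T →+* Algebra.adjoin R T := RingHom.restrict ψ _ _ hadj
  exact IsIntegral.map_of_comp_eq (R := Algebra.adjoin R T) (S := K)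
    (T := Algebra.adjoin R T) (U := K) φ ψ (by ext; rfl) hb

end Sheets

section Tower

variable {R : Type u} [CommRing R] {F : Type u} [Field F] [Algebra R F]
variable {L : Type u} [Field L] [Algebra F L] [Algebra R L] [IsScalarTower R F L]

/-- The restriction of a sheet of `L` to `F` is a sheet of `F`. -/
theorem IsSheet.comap_algebraMap {w : R} {x : F} {W : ValuationSubring L}
    (hW : IsSheet w (algebraMap F L x) W) : IsSheet w x (W.comap (algebraMap F L)) := by
  refine ⟨?_, ?_, ?_, ?_⟩
  · intro r
    rw [ValuationSubring.mem_comap, ← IsScalarTower.algebraMap_apply]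
    exact hW.1 r
  · rw [ValuationSubring.mem_comap]
    exact hW.2.1
  · rw [mem_nonunits_comap, ← IsScalarTower.algebraMap_apply]
    exact hW.2.2.1
  · intro P hP
    rw [ValuationSubring.mem_comap, map_inv₀, ← aeval_algebraMap_apply]
    exact hW.2.2.2 P hP

end Tower

end Fermat.Agent.A2.H12
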