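import Fermat.Agent.A2.H12.GLemmas

/-!
# Cell A2 — route G: CORRECTED hub definitions (helper12, v2)

BUG FIX (found by helper69): `SplitAt m V g` of `GSpec.lean` is satisfied by `u = 0` whenever
`g ∈ 𝔪_V` (because `0⁻¹ = 0 ∈ V`), so `IsKummerSplit` admitted covers ramified at the sheets.
The corrected notions carry the suffix `U`:

* `SplitAtU m V g`        : `∃ u ≠ 0, u ∈ V, u⁻¹ ∈ V, g - u ^ m ∈ 𝔪_V`  (so `g` is a unit of `V`);
* `IsKummerSplitU L w x m`, `CoverConclusionU w x m τ g` : as before with `SplitAtU`.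

The leaf conclusions `SheetsConclusion`, `RedConclusion`, `ConstConclusion`, `CountConclusion`
of `GSpec.lean` are unchanged.
-/

set_option autoImplicit false

namespace Fermat.Agent.A2.H12

universe u

section Cover

variable {R : Type u} [CommRing R] {F : Type u} [Field F] [Algebra R F]

/-- `g` is a unit of `V` whose residue is an `m`-th power. -/
def SplitAtU (m : ℕ) (V : ValuationSubring F) (g : F) : Prop :=
  ∃ u : F, u ≠ 0 ∧ u ∈ V ∧ u⁻¹ ∈ V ∧ g - u ^ m ∈ V.nonunits

theorem SplitAtU.splitAt {m : ℕ} {V : ValuationSubring F} {g : F} (h : SplitAtU m V g) :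
    SplitAt m V g := by
  obtain ⟨u, -, hu, hu', hg⟩ := h
  exact ⟨u, hu, hu', hg⟩

/-- A split element is a unit of `V`. -/
theorem SplitAtU.mem {m : ℕ} {V : ValuationSubring F} {g : F} (h : SplitAtU m V g) : g ∈ V := by
  obtain ⟨u, -, hu, -, hg⟩ := h
  have : g = (g - u ^ m) + u ^ m := by ring
  rw [this]
  exact V.add_mem _ _ (ValuationSubring.nonunits_subset hg) (V.pow_mem hu m)

theorem SplitAtU.not_mem_nonunits {m : ℕ} {V : ValuationSubring F} {g : F}
    (h : SplitAtU m V g) : g ∉ V.nonunits := by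
  obtain ⟨u, hu0, hu, hu', hg⟩ := h
  intro hgn
  have h1 : u ^ m ∈ V.nonunits := by
    have : u ^ m = g - (g - u ^ m) := by ring
    rw [this]
    exact V.nonunits.sub_mem hgn hg
  have h2 : (u⁻¹) ^ m * u ^ m ∈ V.nonunits := mul_mem_nonunits V h1 (V.pow_mem hu' m)
  rw [← mul_pow, inv_mul_cancel₀ hu0, one_pow] at h2
  exact one_not_mem_nonunits V h2

variable (L : Type u) [Field L] [Algebra F L] [Algebra R L] [IsScalarTower R F L]

/-- `L / F` is a finite Galois Kummer cover generated by `m`-th roots of elements `g i` of `F`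
with `m ∣ div (g i)` on the generic fibre and split (`SplitAtU`) at every sheet of `F`. -/
structure IsKummerSplitU (w : R) (x : F) (m : ℕ) : Prop where
  finite : FiniteDimensional F L
  galois : IsGalois F L
  gen : ∃ (n : ℕ) (y : Fin n → L) (g : Fin n → F),
    (∀ i, g i ≠ 0) ∧ (∀ i, y i ^ m = algebraMap F L (g i)) ∧
    IntermediateField.adjoin F (Set.range y) = ⊤ ∧
    (∀ i, HorDiv R m (g i)) ∧ ∀ i, ∀ V : ValuationSubring F, IsSheet w x V → SplitAtU m V (g i)

omit [Algebra R L] [IsScalarTower R F L] in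
theorem IsKummerSplitU.isKummerSplit {w : R} {x : F} {m : ℕ} (h : IsKummerSplitU L w x m) :
    IsKummerSplit L w x m := by
  obtain ⟨n, y, g, h1, h2, h3, h4, h5⟩ := h.gen
  exact ⟨h.finite, h.galois, n, y, g, h1, h2, h3, h4, fun i V hV => (h5 i V hV).splitAt⟩

end Cover

section CoverExists

variable {R : Type u} [CommRing R] {F : Type u} [Field F] [Algebra R F]

/-- Conclusion of leaf **COVER** (corrected). -/
def CoverConclusionU (w : R) (x : F) (m : ℕ) (τ : F ≃+* F) (g : F) : Prop :=
  ∃ (L : Type u) (_ : Field L) (_ : Algebra F L) (_ : Algebra R L) (_ : IsScalarTower R F L),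
    IsKummerSplitU L w x m ∧ ∃ (τ' : L ≃+* L) (y : L),
      (∀ f : F, τ' (algebraMap F L f) = algebraMap F L (τ f)) ∧ y ^ m = algebraMap F L g

end CoverExists

end Fermat.Agent.A2.H12
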