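import Fermat.Agent.A2.H12.GLemmas

/-!
# Cell A2 — route G: the ALG assembly (helper12)

`algG_core` : for a cover `L / F` satisfying the conclusions of the leaves SHEETS, RED, CONST, COUNT
and a lift `τ'` of `τ` fixing one sheet: `τ g / g` is an `m`-th power in `F` for every `g` having an
`m`-th root in `L`.

`algG` : the same from the leaf COVER (any lift), choosing the lift fixing a sheet by transitivity.
-/

set_option autoImplicit false

namespace Fermat.Agent.A2.H12

open Polynomial
open Fermat.Agent.S18.H138 (chart baseField)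

universe u

/-- The Galois group as a subgroup of the ring automorphisms. -/
def galSubgroup (F L : Type u) [Field F] [Field L] [Algebra F L] : Subgroup (L ≃+* L) where
  carrier := {σ | ∀ f : F, σ (algebraMap F L f) = algebraMap F L f}
  mul_mem' := fun {a b} ha hb f => by
    change a (b (algebraMap F L f)) = _
    rw [hb f, ha f]
  one_mem' := fun _ => rfl
  inv_mem' := fun {a} ha f => by
    change a.symm (algebraMap F L f) = _
    rw [RingEquiv.symm_apply_eq, ha f]

theorem mem_galSubgroup {F L : Type u} [Field F] [Field L] [Algebra F L] (σ : L ≃+* L) :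
    σ ∈ galSubgroup F L ↔ ∀ f : F, σ (algebraMap F L f) = algebraMap F L f := Iff.rfl

section Asm

variable {R : Type u} [CommRing R] {F : Type u} [Field F] [Algebra R F]
variable {L : Type u} [Field L] [Algebra F L] [Algebra R L] [IsScalarTower R F L]

/-- A lift of `τ` is compatible with `R`. -/
theorem lift_algebraMap_R (τ : F ≃+* F) (τR : R ≃+* R)
    (hτR : ∀ r, τ (algebraMap R F r) = algebraMap R F (τR r))
    (τ' : L ≃+* L) (hτ' : ∀ f : F, τ' (algebraMap F L f) = algebraMap F L (τ f)) (r : R) :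
    τ' (algebraMap R L r) = algebraMap R L (τR r) := by
  rw [IsScalarTower.algebraMap_apply R F L, hτ', hτR, ← IsScalarTower.algebraMap_apply]

theorem lift_symm_algebraMap_R (τ : F ≃+* F) (τR : R ≃+* R)
    (hτR : ∀ r, τ (algebraMap R F r) = algebraMap R F (τR r))
    (τ' : L ≃+* L) (hτ' : ∀ f : F, τ' (algebraMap F L f) = algebraMap F L (τ f)) (r : R) :
    τ'.symm (algebraMap R L r) = algebraMap R L (τR.symm r) := by
  rw [RingEquiv.symm_apply_eq, lift_algebraMap_R τ τR hτR τ' hτ', RingEquiv.apply_symm_apply]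

theorem lift_symm_algebraMap (τ : F ≃+* F)
    (τ' : L ≃+* L) (hτ' : ∀ f : F, τ' (algebraMap F L f) = algebraMap F L (τ f)) (f : F) :
    τ'.symm (algebraMap F L f) = algebraMap F L (τ.symm f) := by
  rw [RingEquiv.symm_apply_eq, hτ', RingEquiv.apply_symm_apply]

/-- A lift of `τ` preserves the chart `R[T]`-integral closure, for `T ⊆ {x, x⁻¹}`. -/
theorem lift_chart_iff (x : F) (τ : F ≃+* F) (τR : R ≃+* R)
    (hτx : τ x = x) (hτR : ∀ r, τ (algebraMap R F r) = algebraMap R F (τR r))
    (τ' : L ≃+* L) (hτ' : ∀ f : F, τ' (algebraMap F L f) = algebraMap F L (τ f))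
    (T : Set L) (hT : T ⊆ {algebraMap F L x, (algebraMap F L x)⁻¹}) (b : L) :
    b ∈ chart R T ↔ τ' b ∈ chart R T := by
  have hx' : τ' (algebraMap F L x) = algebraMap F L x := by rw [hτ', hτx]
  have hxs : τ'.symm (algebraMap F L x) = algebraMap F L x := by
    rw [RingEquiv.symm_apply_eq, hx']
  constructor
  · intro hb
    refine chart_map_mem (τ' : L →+* L)
      (fun r => ⟨τR r, lift_algebraMap_R τ τR hτR τ' hτ' r⟩) ?_ hb
    intro t ht
    rcases hT ht with rfl | rfl
    · change τ' (algebraMap F L x) ∈ _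
      rw [hx']
      exact Algebra.subset_adjoin ht
    · change τ' (algebraMap F L x)⁻¹ ∈ _
      rw [map_inv₀, hx']
      exact Algebra.subset_adjoin ht
  · intro hb
    have := chart_map_mem (T := T) (τ'.symm : L →+* L)
      (fun r => ⟨τR.symm r, lift_symm_algebraMap_R τ τR hτR τ' hτ' r⟩) ?_ hb
    · simpa using this
    intro t ht
    rcases hT ht with rfl | rfl
    · change τ'.symm (algebraMap F L x) ∈ _
      rw [hxs]
      exact Algebra.subset_adjoin ht
    · change τ'.symm (algebraMap F L x)⁻¹ ∈ _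
      rw [map_inv₀, hxs]
      exact Algebra.subset_adjoin ht

/-- The image of a sheet under a lift of `τ` is a sheet. -/
theorem lift_isSheet (w : R) (x : F) (τ : F ≃+* F) (τR : R ≃+* R)
    (hτx : τ x = x) (hτR : ∀ r, τ (algebraMap R F r) = algebraMap R F (τR r))
    (hτw : ∀ r, w ∣ r ↔ w ∣ τR r)
    (τ' : L ≃+* L) (hτ' : ∀ f : F, τ' (algebraMap F L f) = algebraMap F L (τ f))
    {W : ValuationSubring L} (hW : IsSheet w (algebraMap F L x) W) :
    IsSheet w (algebraMap F L x) (W.comap (τ'.symm : L →+* L)) := by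
  refine hW.comap τ'.symm τR.symm (lift_symm_algebraMap_R τ τR hτR τ' hτ') ?_ ?_
  · intro r
    have := hτw (τR.symm r)
    rw [RingEquiv.apply_symm_apply] at this
    exact this.symm
  · rw [RingEquiv.symm_apply_eq, hτ', hτx]

/-- An element of the Galois group maps sheets to sheets. -/
theorem gal_isSheet (w : R) (x : F) (σ : L ≃+* L) (hσ : σ ∈ galSubgroup F L)
    {W : ValuationSubring L} (hW : IsSheet w (algebraMap F L x) W) :
    IsSheet w (algebraMap F L x) (W.comap (σ.symm : L →+* L)) := by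
  have hσs : ∀ f : F, σ.symm (algebraMap F L f) = algebraMap F L f := by
    intro f
    rw [RingEquiv.symm_apply_eq, hσ f]
  refine hW.comap σ.symm (RingEquiv.refl R) ?_ (fun r => Iff.rfl) (hσs x)
  intro r
  rw [IsScalarTower.algebraMap_apply R F L, hσs, ← IsScalarTower.algebraMap_apply]
  rfl

/-- **Route G, ALG core.**  Cover `L / F` with the leaf conclusions, lift `τ'` fixing the sheet
`W₀`: then `τ g / g ∈ F ^ m` for every `g` with an `m`-th root in `L`. -/
theorem algG_core [IsDomain R] [IsNoetherianRing R] [IsIntegrallyClosed R[X]] [CharZero F]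
    (w : R) (x : F) (m : ℕ) (τ : F ≃+* F) (τR : R ≃+* R)
    (hinj : Function.Injective (algebraMap R F)) (hx : Transcendental R x) (hw : Prime w)
    (hm : 0 < m) (hroot : ∃ ζ : R, IsPrimitiveRoot ζ m ∧ τR ζ = ζ)
    (hτx : τ x = x) (hτR : ∀ r, τ (algebraMap R F r) = algebraMap R F (τR r))
    (hτw : ∀ r, w ∣ r ↔ w ∣ τR r)
    (hτV : ∀ V : ValuationSubring F, IsSheet w x V → ∀ c : F,
      (c ∈ V ↔ τ c ∈ V) ∧ (c ∈ V → τ c - c ∈ V.nonunits))
    [FiniteDimensional F L] [IsGalois F L]
    (hS : SheetsConclusion L w x) (hRed : RedConclusion L w x)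
    (hConst : ConstConclusion (R := R) L x) (hCount : CountConclusion L w x)
    (τ' : L ≃+* L) (hτ' : ∀ f : F, τ' (algebraMap F L f) = algebraMap F L (τ f))
    (W₀ : ValuationSubring L) (hW₀ : IsSheet w (algebraMap F L x) W₀)
    (hfix : ∀ b, b ∈ W₀ ↔ τ' b ∈ W₀)
    (g : F) (hg : g ≠ 0) (y : L) (hy : y ^ m = algebraMap F L g) :
    ∃ z : F, τ g = z ^ m * g := by
  classical
  set xL : L := algebraMap F L x with hxL
  let S := ↥{W : ValuationSubring L | IsSheet w xL W}
  have : Fintype S := hS.finite.fintype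
  let M : S → AddSubgroup L := fun s => s.1.nonunits.toAddSubgroup
  have hι : Function.Injective (algebraMap F L) := (algebraMap F L).injective
  have hinjL : Function.Injective (algebraMap R L) := by
    rw [IsScalarTower.algebraMap_eq R F L]
    exact hι.comp hinj
  have : CharZero L := charZero_of_injective_algebraMap hι
  have := hConst.finite
  have hxLt : Transcendental R xL := (transcendental_algebraMap_iff hι).2 hx
  have hy0 : y ≠ 0 := by
    rintro rfl
    rw [zero_pow hm.ne'] at hy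
    exact hg (hι (by rw [← hy, map_zero]))
  have hιg : algebraMap F L g ≠ 0 := fun h => hg (hι (by rw [h, map_zero]))
  -- roots of unity
  have hζ : ∀ σ ∈ galSubgroup F L, ∃ ζ : L, σ y = ζ * y ∧ τ' ζ = ζ := by
    intro σ hσ
    obtain ⟨ζ₀, hζ₀, hτζ₀⟩ := hroot
    have hprim : IsPrimitiveRoot (algebraMap R L ζ₀) m := hζ₀.map_of_injective hinjL
    have hpow : (σ y / y) ^ m = 1 := by
      rw [div_pow, ← map_pow, hy, hσ g, div_self hιg]
    have : NeZero m := ⟨hm.ne'⟩
    obtain ⟨i, -, hi⟩ := hprim.eq_pow_of_pow_eq_one hpow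
    refine ⟨σ y / y, by field_simp, ?_⟩
    rw [← hi, map_pow, lift_algebraMap_R τ τR hτR τ' hτ', hτζ₀]
  have key := wallG (R := R) (L := L) (S := S) w (chart R {xL}) (chart R {xL⁻¹})
    (chart R {xL, xL⁻¹}) M
    (fun s c hc a ha => mul_mem_nonunits s.1 ha (s.2.chart_le Set.Subset.rfl hc))
    (Fermat.Agent.S18.H138.chart_mono (Set.singleton_subset_iff.2 (Or.inl rfl)))
    (Fermat.Agent.S18.H138.chart_mono (Set.singleton_subset_iff.2 (Or.inr rfl)))
    (fun s => one_not_mem_nonunits s.1)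
    (fun s => s.2.2.2.1)
    (fun b hb h => hRed _ (Or.inr (Or.inr rfl)) b hb (fun W hW => h ⟨W, hW⟩))
    (fun b hb h => hRed _ (Or.inl rfl) b hb (fun W hW => h ⟨W, hW⟩))
    (fun b hb h => hRed _ (Or.inr (Or.inl rfl)) b hb (fun W hW => h ⟨W, hW⟩))
    (fun e₁ e₂ he₁ he₂ h1 h2 h12 =>
      Fermat.Agent.S18.H138.connected_special_fibre hinjL hConst.closed hxLt w hw e₁ e₂ he₁ he₂
        h1 h2 h12)
    τ'
    (lift_chart_iff x τ τR hτx hτR τ' hτ' {xL} (Set.singleton_subset_iff.2 (Or.inl rfl)))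
    (lift_chart_iff x τ τR hτx hτR τ' hτ' {xL⁻¹} (Set.singleton_subset_iff.2 (Or.inr rfl)))
    (fun s => ⟨⟨s.1.comap (τ'.symm : L →+* L), lift_isSheet w x τ τR hτx hτR hτw τ' hτ' s.2⟩,
      fun b => by
        change b ∈ s.1.nonunits ↔ τ' b ∈ (s.1.comap (τ'.symm : L →+* L)).nonunits
        rw [mem_nonunits_comap]
        simp⟩)
    (fun s t hst => by
      apply Subtype.ext
      apply ValuationSubring.nonunits_injective
      ext b
      have := congrArg (fun A : AddSubgroup L => b ∈ A) hst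
      exact iff_of_eq this)
    (col := fun s : S => s.1.comap (algebraMap F L))
    (fun s s' h => by
      have hmem := mem_iff_of_nonunits_iff τ' s.1 s'.1 h
      have hV := (IsSheet.comap_algebraMap s.2)
      ext f
      have h1 := hmem (algebraMap F L (τ.symm f))
      rw [hτ', RingEquiv.apply_symm_apply] at h1
      have h2 := (hτV _ hV (τ.symm f)).1
      rw [RingEquiv.apply_symm_apply] at h2
      rw [ValuationSubring.mem_comap, ← h1, ← ValuationSubring.mem_comap, h2])
    (fun s h b hb => by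
      have hmem := mem_iff_of_nonunits_iff τ' s.1 s.1 h
      have hV := (IsSheet.comap_algebraMap s.2)
      have hbW : b ∈ s.1 := by
        rcases hb with hb | hb
        · exact s.2.chart_le (Set.singleton_subset_iff.2 (Or.inl rfl)) hb
        · exact s.2.chart_le (Set.singleton_subset_iff.2 (Or.inr rfl)) hb
      obtain ⟨c, hc⟩ := hS.resdeg s.1 s.2 b hbW
      have hcW : algebraMap F L c ∈ s.1 := by
        have : algebraMap F L c = b - (b - algebraMap F L c) := by ring
        rw [this]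
        exact sub_mem hbW (ValuationSubring.nonunits_subset hc)
      have hcV : c ∈ s.1.comap (algebraMap F L) := hcW
      have h3 := (mem_nonunits_comap s.1 (algebraMap F L) _).1 ((hτV _ hV c).2 hcV)
      rw [map_sub] at h3
      have h4 : τ' (b - algebraMap F L c) ∈ s.1.nonunits := (h _).1 hc
      have h5 : τ' b - b = (τ' (b - algebraMap F L c) - (b - algebraMap F L c)) +
          (algebraMap F L (τ c) - algebraMap F L c) := by
        rw [map_sub, hτ']
        ring
      change τ' b - b ∈ s.1.nonunits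
      rw [h5]
      exact s.1.nonunits.add_mem (s.1.nonunits.sub_mem h4 hc) h3)
    (fun 𝔫 h𝔫 s t hc hs ht => Subtype.ext (hCount.1 𝔫 h𝔫 s.1 t.1 s.2 t.2 hc hs ht))
    (fun 𝔫 h𝔫 s t hc hs ht => Subtype.ext (hCount.2 𝔫 h𝔫 s.1 t.1 s.2 t.2 hc hs ht))
    ⟨W₀, hW₀⟩ (nonunits_iff_of_mem_iff τ' W₀ W₀ hfix)
    (galSubgroup F L)
    (fun σ hσ s => ⟨⟨s.1.comap (σ.symm : L →+* L), gal_isSheet w x σ hσ s.2⟩, fun b => by
        change b ∈ s.1.nonunits ↔ σ b ∈ (s.1.comap (σ.symm : L →+* L)).nonunits
        rw [mem_nonunits_comap]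
        simp⟩)
    (fun σ hσ s h => by
      have hmem := mem_iff_of_nonunits_iff σ s.1 s.1 h
      have h1 := hS.free s.1 s.2 (AlgEquiv.ofRingEquiv (f := σ) hσ) hmem
      ext b
      have := congrArg (fun f : L ≃ₐ[F] L => f b) h1
      exact this)
    (fun σ hσ f => by
      change τ' (σ (τ'.symm (algebraMap F L f))) = algebraMap F L f
      rw [lift_symm_algebraMap τ τ' hτ', hσ, hτ', RingEquiv.apply_symm_apply])
    y hy0 hζ
  -- conclusion
  have hz : τ' y / y ∈ (⊥ : IntermediateField F L) := by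
    rw [IsGalois.mem_bot_iff_fixed]
    intro f
    exact key (f : L ≃+* L) (fun c => f.commutes c)
  obtain ⟨z, hz⟩ := IntermediateField.mem_bot.1 hz
  refine ⟨z, hι ?_⟩
  rw [map_mul, map_pow, hz, div_pow, ← hy, div_mul_cancel₀ _ (pow_ne_zero m hy0), ← map_pow, hy,
    hτ']

/-- **Route G, ALG assembly.**  From the leaves SHEETS, RED, CONST, COUNT (for all Kummer-split
covers of `F`) and COVER (for `g`): `τ g / g` is an `m`-th power in `F`. -/
theorem algG [IsDomain R] [IsNoetherianRing R] [IsIntegrallyClosed R[X]] [CharZero F]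
    (w : R) (x : F) (m : ℕ) (τ : F ≃+* F) (τR : R ≃+* R)
    (hinj : Function.Injective (algebraMap R F)) (hx : Transcendental R x) (hw : Prime w)
    (hm : 0 < m) (hroot : ∃ ζ : R, IsPrimitiveRoot ζ m ∧ τR ζ = ζ)
    (hτx : τ x = x) (hτR : ∀ r, τ (algebraMap R F r) = algebraMap R F (τR r))
    (hτw : ∀ r, w ∣ r ↔ w ∣ τR r)
    (hτV : ∀ V : ValuationSubring F, IsSheet w x V → ∀ c : F,
      (c ∈ V ↔ τ c ∈ V) ∧ (c ∈ V → τ c - c ∈ V.nonunits))
    (hsheet : ∃ V : ValuationSubring F, IsSheet w x V)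
    (hSheets : ∀ (L : Type u) [Field L] [Algebra F L] [Algebra R L] [IsScalarTower R F L],
      IsKummerSplit L w x m → SheetsConclusion L w x)
    (hRed : ∀ (L : Type u) [Field L] [Algebra F L] [Algebra R L] [IsScalarTower R F L],
      IsKummerSplit L w x m → RedConclusion L w x)
    (hConst : ∀ (L : Type u) [Field L] [Algebra F L] [Algebra R L] [IsScalarTower R F L],
      IsKummerSplit L w x m → ConstConclusion (R := R) L x)
    (hCount : ∀ (L : Type u) [Field L] [Algebra F L] [Algebra R L] [IsScalarTower R F L],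
      IsKummerSplit L w x m → CountConclusion L w x)
    (g : F) (hg : g ≠ 0) (hCover : CoverConclusion w x m τ g) :
    ∃ z : F, τ g = z ^ m * g := by
  obtain ⟨L, _, _, _, _, hKS, τ₀, y, hτ₀, hy⟩ := hCover
  have := hKS.finite
  have := hKS.galois
  have S1 := hSheets L hKS
  obtain ⟨V₀, hV₀⟩ := hsheet
  obtain ⟨W₀, hW₀, -⟩ := S1.exists_over V₀ hV₀
  have hW₁ : IsSheet w (algebraMap F L x) (W₀.comap (τ₀.symm : L →+* L)) :=
    lift_isSheet w x τ τR hτx hτR hτw τ₀ hτ₀ hW₀
  have hcol : (W₀.comap (τ₀.symm : L →+* L)).comap (algebraMap F L) =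
      W₀.comap (algebraMap F L) := by
    ext f
    have h2 := (hτV _ (IsSheet.comap_algebraMap hW₀) (τ.symm f)).1
    rw [RingEquiv.apply_symm_apply] at h2
    rw [ValuationSubring.mem_comap, ValuationSubring.mem_comap]
    change τ₀.symm (algebraMap F L f) ∈ W₀ ↔ _
    rw [lift_symm_algebraMap τ τ₀ hτ₀, ← ValuationSubring.mem_comap, h2]
  obtain ⟨σ, hσ⟩ := S1.trans _ W₀ hW₁ hW₀ hcol
  refine algG_core (L := L) w x m τ τR hinj hx hw hm hroot hτx hτR hτw hτV S1 (hRed L hKS)
    (hConst L hKS) (hCount L hKS) (τ₀.trans (σ : L ≃+* L)) ?_ W₀ hW₀ ?_ g hg y hy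
  · intro f
    change σ (τ₀ (algebraMap F L f)) = _
    rw [hτ₀, σ.commutes]
  · intro b
    change b ∈ W₀ ↔ σ (τ₀ b) ∈ W₀
    rw [← hσ, ValuationSubring.mem_comap]
    change _ ↔ τ₀.symm (τ₀ b) ∈ W₀
    rw [RingEquiv.symm_apply_apply]

end Asm

end Fermat.Agent.A2.H12
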