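import Fermat.Agent.A2.H12.GLemmas

/-!
# Cell A2 — route G: STEP I (helper12)

Mathlib-only.  For `f` with `m ∣ div f` on the generic fibre, `g := τ f / f` again has `m ∣ div g`
and is split at every sheet `V` of `F` (a unit with residue an `m`-th power), provided
`V` is discrete with uniformiser `w`, `τ ≡ id` on the residue field of `V`, and the units of `R`
are `m`-th powers.
-/

set_option autoImplicit false

namespace Fermat.Agent.A2.H12

universe u

section Step1

variable {R : Type u} [CommRing R] {F : Type u} [Field F] [Algebra R F]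

theorem zpow_mem_of_unit (V : ValuationSubring F) {a : F} (ha : a ∈ V) (ha' : a⁻¹ ∈ V) (n : ℤ) :
    a ^ n ∈ V := by
  cases n with
  | ofNat k =>
    simp only [Int.ofNat_eq_natCast, zpow_natCast]
    exact V.pow_mem ha k
  | negSucc k =>
    rw [zpow_negSucc, ← inv_pow]
    exact V.pow_mem ha' _

/-- `HorDiv` is stable under an automorphism compatible with `R`. -/
theorem HorDiv.map (τ : F ≃+* F) (τR : R ≃+* R)
    (hτR : ∀ r, τ (algebraMap R F r) = algebraMap R F (τR r)) {m : ℕ} {f : F}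
    (hf : HorDiv R m f) : HorDiv R m (τ f) := by
  intro V hV hVR
  let V' : ValuationSubring F := V.comap (τ : F →+* F)
  let φ : V' →+* V := RingHom.restrict (τ : F →+* F) V' V (fun x hx => hx)
  have hφ : Function.Bijective φ := by
    constructor
    · intro a b hab
      apply Subtype.ext
      have : τ (a : F) = τ (b : F) := congrArg Subtype.val hab
      exact τ.injective this
    · intro b
      refine ⟨⟨τ.symm (b : F), ?_⟩, Subtype.ext ?_⟩
      · change τ (τ.symm (b : F)) ∈ V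
        rw [RingEquiv.apply_symm_apply]
        exact b.2
      · change τ (τ.symm (b : F)) = b
        rw [RingEquiv.apply_symm_apply]
  let e : V' ≃+* V := RingEquiv.ofBijective φ hφ
  have hV' : IsDiscreteValuationRing V' := IsDiscreteValuationRing.RingEquivClass.isDiscreteValuationRing e.symm
  obtain ⟨h, u, hh, hu, hu', hfu⟩ := hf V' hV' (fun r hr => by
    have hr' : τR r ≠ 0 := fun h0 => hr ((map_eq_zero_iff τR τR.injective).1 h0)
    constructor
    · change τ (algebraMap R F r) ∈ V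
      rw [hτR]
      exact (hVR _ hr').1
    · change τ (algebraMap R F r)⁻¹ ∈ V
      rw [map_inv₀, hτR]
      exact (hVR _ hr').2)
  refine ⟨τ h, τ u, ?_, hu, ?_, ?_⟩
  · intro h0
    exact hh ((map_eq_zero_iff τ τ.injective).1 h0)
  · rw [← map_inv₀]
    exact hu'
  · rw [hfu, map_mul, map_pow]

/-- `HorDiv` is stable under quotients. -/
theorem HorDiv.div {m : ℕ} {a b : F} (ha : HorDiv R m a) (hb : HorDiv R m b) :
    HorDiv R m (a / b) := by
  intro V hV hVR
  obtain ⟨h, u, hh, hu, hu', hfu⟩ := ha V hV hVR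
  obtain ⟨h', v, hh', hv, hv', hfv⟩ := hb V hV hVR
  refine ⟨h / h', u / v, div_ne_zero hh hh', ?_, ?_, ?_⟩
  · rw [div_eq_mul_inv]
    exact V.mul_mem _ _ hu hv'
  · rw [inv_div, div_eq_mul_inv]
    exact V.mul_mem _ _ hv hu'
  · rw [hfu, hfv, div_pow, mul_div_mul_comm]

/-- **STEP I, split part.** -/
theorem splitAt_tauSubOne (w : R) (x : F) (m : ℕ) (hm : 0 < m) (τ : F ≃+* F) (τR : R ≃+* R)
    (hτR : ∀ r, τ (algebraMap R F r) = algebraMap R F (τR r))
    (hW0 : algebraMap R F w ≠ 0)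
    (hwunit : ∃ c d : R, τR w = w * c ∧ c * d = 1)
    (hpow : ∀ c : R, IsUnit c → ∃ c₀ : R, c = c₀ ^ m)
    (V : ValuationSubring F) (hV : IsSheet w x V)
    (hstab : ∀ c : F, c ∈ V → τ c - c ∈ V.nonunits)
    (hdisc : ∀ f : F, f ≠ 0 → ∃ (n : ℤ) (u : F), u ∈ V ∧ u⁻¹ ∈ V ∧
      f = algebraMap R F w ^ n * u)
    (f : F) (hf : f ≠ 0) : SplitAt m V (τ f / f) := by
  obtain ⟨n, u, hu, hu', hfu⟩ := hdisc f hf
  obtain ⟨c, d, hc, hcd⟩ := hwunit
  have hcunit : IsUnit c := IsUnit.of_mul_eq_one d hcd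
  obtain ⟨c₀, hc₀⟩ := hpow c hcunit
  have hc₀unit : IsUnit c₀ := by
    rw [hc₀] at hcunit
    exact (isUnit_pow_iff hm.ne').1 hcunit
  obtain ⟨d₀, hd₀⟩ := hc₀unit.exists_right_inv
  set W : F := algebraMap R F w with hW
  set C₀ : F := algebraMap R F c₀ with hC₀
  have hC₀d : C₀ * algebraMap R F d₀ = 1 := by rw [hC₀, ← map_mul, hd₀, map_one]
  have hC₀ne : C₀ ≠ 0 := left_ne_zero_of_mul_eq_one hC₀d
  have hC₀inv : C₀⁻¹ = algebraMap R F d₀ := (eq_inv_of_mul_eq_one_right hC₀d).symm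
  have hC₀V : C₀ ∈ V := hV.1 c₀
  have hC₀V' : C₀⁻¹ ∈ V := by rw [hC₀inv]; exact hV.1 d₀
  have hu0 : u ≠ 0 := by
    rintro rfl
    rw [mul_zero] at hfu
    exact hf hfu
  have hτW : τ W = W * C₀ ^ m := by
    rw [hW, hτR, hc, map_mul, hc₀, map_pow]
  have hτu0 : τ u ≠ 0 := fun h0 => hu0 ((map_eq_zero_iff τ τ.injective).1 h0)
  -- the quotient
  have hg : τ f / f = (C₀ ^ n) ^ m * (τ u / u) := by
    rw [hfu, map_mul, map_zpow₀, hτW, mul_zpow]
    have h1 : (C₀ ^ m) ^ n = (C₀ ^ n) ^ m := by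
      rw [← zpow_natCast, ← zpow_natCast, ← zpow_mul, ← zpow_mul, mul_comm]
    rw [h1]
    have hWn : W ^ n ≠ 0 := zpow_ne_zero n hW0
    field_simp
  refine ⟨C₀ ^ n, zpow_mem_of_unit V hC₀V hC₀V' n, ?_, ?_⟩
  · rw [← inv_zpow]
    exact zpow_mem_of_unit V hC₀V' (by rw [inv_inv]; exact hC₀V) n
  · have h2 : τ f / f - (C₀ ^ n) ^ m = ((C₀ ^ n) ^ m * u⁻¹) * (τ u - u) := by
      rw [hg]
      field_simp
    rw [h2]
    exact mul_mem_nonunits V (hstab u hu)
      (V.mul_mem _ _ (V.pow_mem (zpow_mem_of_unit V hC₀V hC₀V' n) m) hu')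

end Step1

end Fermat.Agent.A2.H12
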