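import Fermat.Agent.A2.H12.AlgLeaves
import Fermat.Agent.A2.H12.GAsm
import Fermat.Agent.A2.H12.Step1

/-!
# Cell A2 — route G: `AlgSSStatement` from the seven leaves (helper12)

`algSS_of_leaves : BaseLeaf → RootLeaf → SheetsLeaf → RedLeaf → ConstLeaf → CountLeaf → CoverLeaf →
  Fermat.Agent.A2.AlgSSStatement`.

Proof: STEP I (`Step1.lean`) shows that `g := τ f / f` is split at the sheets and has `m ∣ div g`;
the leaf COVER gives a Kummer-split cover with a lift of `τ`; `algG` (`GAsm.lean`: deck argument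
`wallG` + connectedness `S18.H138.connected_special_fibre` + COUNT) gives `τ g = z ^ m * g`.
-/

set_option autoImplicit false

namespace Fermat.Agent.A2.H12

open Fermat.Agent.A2 Polynomial

/-- `DivisibleDiv E m f → HorDiv R m f` for `E = Frac R`. -/
theorem horDiv_of_divisibleDiv {R E F : Type} [CommRing R] [IsDomain R] [Field E] [Algebra R E]
    [IsFractionRing R E] [Field F] [Algebra E F] [Algebra R F] [IsScalarTower R E F]
    {m : ℕ} {f : F} (h : DivisibleDiv E m f) : HorDiv R m f := by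
  intro V hV hVR
  refine h V hV (fun e => ?_)
  obtain ⟨a, b, hb, rfl⟩ := IsFractionRing.div_surjective (A := R) e
  have hb0 : b ≠ 0 := nonZeroDivisors.ne_zero hb
  rw [map_div₀, ← IsScalarTower.algebraMap_apply, ← IsScalarTower.algebraMap_apply,
    div_eq_mul_inv]
  by_cases ha : a = 0
  · subst ha
    simp [V.zero_mem]
  · exact V.mul_mem _ _ (hVR a ha).1 (hVR b hb0).2

/-- **ALG from the leaves (route G).** -/
theorem algSS_of_leaves (hBase : BaseLeaf) (hRoot : RootLeaf) (hSheets : SheetsLeaf)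
    (hRed : RedLeaf) (hConst : ConstLeaf) (hCount : CountLeaf) (hCover : CoverLeaf) :
    AlgSSStatement := by
  intro R E F _ _ _ _ _ _ _ _ _ _ _ _ _ w hirr q m hq hqR hm hqm x hx hfin hconst Bf Bi hBf hBi
    cf ci sf si τ τE τR hτE hτR hτx hfo hτf hτi
  have ctx : SSCtx w q m x Bf Bi τ τE τR :=
    ⟨hirr, hq, hqR, hm, hqm, hx, hfin, hconst, hBf, hBi, ⟨cf⟩, ⟨ci⟩, sf, si, hτE, hτR, hτx, hfo,
      hτf, hτi⟩
  have B := hBase w q m x Bf Bi τ τE τR ctx
  have Rt := hRoot w q m x Bf Bi τ τE τR ctx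
  have hinjRE : Function.Injective (algebraMap R E) := IsFractionRing.injective R E
  have hinj : Function.Injective (algebraMap R F) := by
    rw [IsScalarTower.algebraMap_eq R E F]
    exact (algebraMap E F).injective.comp hinjRE
  have : CharZero F := charZero_of_injective_algebraMap (algebraMap E F).injective
  have hxR : Transcendental R x := hx.restrictScalars hinjRE
  have hw : Prime w := hirr.prime
  have hτRF : ∀ r, τ (algebraMap R F r) = algebraMap R F (τR r) := by
    intro r
    rw [IsScalarTower.algebraMap_apply R E F, hτE, hτR, ← IsScalarTower.algebraMap_apply]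
  -- `w ∣ r ↔ r` is not a unit
  have hdvd : ∀ r : R, w ∣ r ↔ ¬ IsUnit r := by
    intro r
    rw [← Ideal.mem_span_singleton, ← hirr.maximalIdeal_eq, IsLocalRing.mem_maximalIdeal,
      mem_nonunits_iff]
  have hτw : ∀ r, w ∣ r ↔ w ∣ τR r := by
    intro r
    rw [hdvd, hdvd]
    exact not_congr (MulEquiv.isUnit_map (τR : R ≃* R)).symm
  have hwunit : ∃ c d : R, τR w = w * c ∧ c * d = 1 := by
    obtain ⟨c, hc⟩ := (hτw w).1 dvd_rfl
    have hirr' : Irreducible (τR w) := (MulEquiv.irreducible_iff (τR : R ≃* R)).2 hirr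
    rw [hc] at hirr'
    rcases hirr'.isUnit_or_isUnit rfl with h | h
    · exact absurd h hirr.not_isUnit
    · obtain ⟨d, hd⟩ := h.exists_right_inv
      exact ⟨c, d, hc, hd⟩
  have hW0 : algebraMap R F w ≠ 0 := by
    intro h0
    exact hirr.ne_zero (hinj (by rw [h0, map_zero]))
  intro f hf hdiv
  have hHor : HorDiv R m f := horDiv_of_divisibleDiv hdiv
  have hτf0 : τ f ≠ 0 := fun h0 => hf ((map_eq_zero_iff τ τ.injective).1 h0)
  have hg0 : τ f / f ≠ 0 := div_ne_zero hτf0 hf
  have hgHor : HorDiv R m (τ f / f) := (hHor.map τ τR hτRF).div hHor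
  have hgSplit : ∀ V : ValuationSubring F, IsSheet w x V → SplitAt m V (τ f / f) :=
    fun V hV => splitAt_tauSubOne w x m hm τ τR hτRF hW0 hwunit Rt.unit_pow V hV
      (fun c hc => (B.stable V hV c).2 hc) (B.discrete V hV) f hf
  have hcov := hCover w q m x Bf Bi τ τE τR ctx (τ f / f) hg0 hgHor hgSplit
  obtain ⟨z, hz⟩ := algG w x m τ τR hinj hxR hw hm Rt.root hτx hτRF hτw B.stable B.exists_sheet
    (fun L _ _ _ _ h => hSheets w q m x Bf Bi τ τE τR ctx L h)
    (fun L _ _ _ _ h => hRed w q m x Bf Bi τ τE τR ctx L h)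
    (fun L _ _ _ _ h => hConst w q m x Bf Bi τ τE τR ctx L h)
    (fun L _ _ _ _ h => hCount w q m x Bf Bi τ τE τR ctx L h)
    (τ f / f) hg0 hcov
  have hz0 : z ≠ 0 := by
    rintro rfl
    rw [zero_pow hm.ne', zero_mul] at hz
    exact hg0 ((map_eq_zero_iff τ τ.injective).1 hz)
  refine ⟨z, hz0, ?_⟩
  rw [map_div₀] at hz
  field_simp at hz
  rw [hz]
  ring

end Fermat.Agent.A2.H12
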