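import Fermat.Agent.A2.H12.AlgLeavesU
import Fermat.Agent.A2.H12.AlgSS

/-!
# Cell A2 — route G: `AlgSSStatement` from the corrected leaves (helper12, v2)

`algSS_of_leavesU : BaseLeaf → RootLeaf → SheetsLeafU → RedLeafU → ConstLeafU → CountLeafU →
  CoverLeafU → Fermat.Agent.A2.AlgSSStatement`.
-/

set_option autoImplicit false

namespace Fermat.Agent.A2.H12

open Fermat.Agent.A2 Polynomial

universe u

section

variable {R : Type u} [CommRing R] {F : Type u} [Field F] [Algebra R F]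

/-- **STEP I, split part** (corrected form). -/
theorem splitAtU_tauSubOne (w : R) (x : F) (m : ℕ) (hm : 0 < m) (τ : F ≃+* F) (τR : R ≃+* R)
    (hτR : ∀ r, τ (algebraMap R F r) = algebraMap R F (τR r))
    (hW0 : algebraMap R F w ≠ 0)
    (hwunit : ∃ c d : R, τR w = w * c ∧ c * d = 1)
    (hpow : ∀ c : R, IsUnit c → ∃ c₀ : R, c = c₀ ^ m)
    (V : ValuationSubring F) (hV : IsSheet w x V)
    (hstab : ∀ c : F, c ∈ V → τ c - c ∈ V.nonunits)
    (hdisc : ∀ f : F, f ≠ 0 → ∃ (n : ℤ) (u : F), u ∈ V ∧ u⁻¹ ∈ V ∧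
      f = algebraMap R F w ^ n * u)
    (f : F) (hf : f ≠ 0) : SplitAtU m V (τ f / f) := by
  obtain ⟨u, hu, hu', hg⟩ := splitAt_tauSubOne w x m hm τ τR hτR hW0 hwunit hpow V hV hstab
    hdisc f hf
  refine ⟨u, ?_, hu, hu', hg⟩
  rintro rfl
  rw [zero_pow hm.ne', sub_zero] at hg
  -- `τ f / f ∈ 𝔪_V` is impossible: it is a unit of `V`
  obtain ⟨n, v, hv, hv', hfv⟩ := hdisc f hf
  obtain ⟨c, d, hc, hcd⟩ := hwunit
  have hv0 : v ≠ 0 := by
    rintro rfl
    rw [mul_zero] at hfv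
    exact hf hfv
  have hτv0 : τ v ≠ 0 := fun h0 => hv0 ((map_eq_zero_iff τ τ.injective).1 h0)
  have hCd : algebraMap R F c * algebraMap R F d = 1 := by rw [← map_mul, hcd, map_one]
  have hC0 : algebraMap R F c ≠ 0 := left_ne_zero_of_mul_eq_one hCd
  have hCinv : (algebraMap R F c)⁻¹ = algebraMap R F d := (eq_inv_of_mul_eq_one_right hCd).symm
  have hτW : τ (algebraMap R F w) = algebraMap R F w * algebraMap R F c := by
    rw [hτR, hc, map_mul]
  have hquot : τ f / f = algebraMap R F c ^ n * (τ v / v) := by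
    rw [hfv, map_mul, map_zpow₀, hτW, mul_zpow]
    have hWn : algebraMap R F w ^ n ≠ 0 := zpow_ne_zero n hW0
    field_simp
  -- the inverse of `τ f / f` lies in `V`
  have hτv : τ v ∈ V := by
    have := ValuationSubring.nonunits_subset (hstab v hv)
    have h2 : τ v = (τ v - v) + v := by ring
    rw [h2]
    exact V.add_mem _ _ this hv
  have hτv' : (τ v)⁻¹ ∈ V := by
    -- `τ v = v (1 + (τ v - v) / v)` with `(τ v - v)/v ∈ 𝔪_V`
    have h1 : (τ v - v) * v⁻¹ ∈ V.nonunits := by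
      rw [mul_comm]
      exact mul_mem_nonunits V (hstab v hv) hv'
    have h2 : τ v * v⁻¹ = 1 + (τ v - v) * v⁻¹ := by
      field_simp
      ring
    have h3 : τ v * v⁻¹ ∉ V.nonunits := by
      intro h
      have : (1 : F) = τ v * v⁻¹ - (τ v - v) * v⁻¹ := by rw [h2]; ring
      exact one_not_mem_nonunits V (this ▸ V.nonunits.sub_mem h h1)
    have h4 : τ v * v⁻¹ ≠ 0 := mul_ne_zero hτv0 (inv_ne_zero hv0)
    have h5 : (τ v * v⁻¹)⁻¹ ∈ V := by
      by_contra hcon
      apply h3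
      rw [ValuationSubring.mem_nonunits_iff_or]
      exact Or.inr hcon
    have h6 : (τ v)⁻¹ = (τ v * v⁻¹)⁻¹ * v⁻¹ := by
      field_simp
    rw [h6]
    exact V.mul_mem _ _ h5 hv'
  have hinvmem : (τ f / f)⁻¹ ∈ V := by
    rw [hquot, mul_inv, ← inv_zpow, inv_div]
    refine V.mul_mem _ _ (zpow_mem_of_unit V ?_ ?_ n) (by
      rw [div_eq_mul_inv]
      exact V.mul_mem _ _ hv hτv')
    · rw [hCinv]
      exact hV.1 d
    · rw [inv_inv]
      exact hV.1 c
  have := mul_mem_nonunits V hg hinvmem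
  have hne : τ f / f ≠ 0 := div_ne_zero (fun h0 => hf ((map_eq_zero_iff τ τ.injective).1 h0)) hf
  rw [inv_mul_cancel₀ hne] at this
  exact one_not_mem_nonunits V this

variable [IsDomain R] [IsNoetherianRing R] [IsIntegrallyClosed R[X]] [CharZero F]

/-- **Route G, ALG assembly** (corrected cover class). -/
theorem algGU (w : R) (x : F) (m : ℕ) (τ : F ≃+* F) (τR : R ≃+* R)
    (hinj : Function.Injective (algebraMap R F)) (hx : Transcendental R x) (hw : Prime w)
    (hm : 0 < m) (hroot : ∃ ζ : R, IsPrimitiveRoot ζ m ∧ τR ζ = ζ)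
    (hτx : τ x = x) (hτR : ∀ r, τ (algebraMap R F r) = algebraMap R F (τR r))
    (hτw : ∀ r, w ∣ r ↔ w ∣ τR r)
    (hτV : ∀ V : ValuationSubring F, IsSheet w x V → ∀ c : F,
      (c ∈ V ↔ τ c ∈ V) ∧ (c ∈ V → τ c - c ∈ V.nonunits))
    (hsheet : ∃ V : ValuationSubring F, IsSheet w x V)
    (hSheets : ∀ (L : Type u) [Field L] [Algebra F L] [Algebra R L] [IsScalarTower R F L],
      IsKummerSplitU L w x m → SheetsConclusion L w x)
    (hRed : ∀ (L : Type u) [Field L] [Algebra F L] [Algebra R L] [IsScalarTower R F L],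
      IsKummerSplitU L w x m → RedConclusion L w x)
    (hConst : ∀ (L : Type u) [Field L] [Algebra F L] [Algebra R L] [IsScalarTower R F L],
      IsKummerSplitU L w x m → ConstConclusion (R := R) L x)
    (hCount : ∀ (L : Type u) [Field L] [Algebra F L] [Algebra R L] [IsScalarTower R F L],
      IsKummerSplitU L w x m → CountConclusion L w x)
    (g : F) (hg : g ≠ 0) (hCover : CoverConclusionU w x m τ g) :
    ∃ z : F, τ g = z ^ m * g := by
  obtain ⟨L, _, _, _, _, hKS, τ₀, y, hτ₀, hy⟩ := hCover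
  have := hKS.finite
  have := hKS.galois
  have S1 := hSheets L hKS
  obtain ⟨V₀, hV₀⟩ := hsheet
  obtain ⟨W₀, hW₀, -⟩ := S1.exists_over V₀ hV₀
  have hW₁ : IsSheet w (algebraMap F L x) (W₀.comap (τ₀.symm : L →+* L)) :=
    lift_isSheet w x τ τR hτx hτR hτw τ₀ hτ₀ hW₀
  have hcol : (W₀.comap (τ₀.symm : L →+* L)).comap (algebraMap F L) =
      W₀.comap (algebraMap F L) := by
    ext f
    have h2 := (hτV _ (IsSheet.comap_algebraMap hW₀) (τ.symm f)).1
    rw [RingEquiv.apply_symm_apply] at h2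
    rw [ValuationSubring.mem_comap, ValuationSubring.mem_comap]
    change τ₀.symm (algebraMap F L f) ∈ W₀ ↔ _
    rw [lift_symm_algebraMap τ τ₀ hτ₀, ← ValuationSubring.mem_comap, h2]
  obtain ⟨σ, hσ⟩ := S1.trans _ W₀ hW₁ hW₀ hcol
  refine algG_core (L := L) w x m τ τR hinj hx hw hm hroot hτx hτR hτw hτV S1 (hRed L hKS)
    (hConst L hKS) (hCount L hKS) (τ₀.trans (σ : L ≃+* L)) ?_ W₀ hW₀ ?_ g hg y hy
  · intro f
    change σ (τ₀ (algebraMap F L f)) = _
    rw [hτ₀, σ.commutes]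
  · intro b
    change b ∈ W₀ ↔ σ (τ₀ b) ∈ W₀
    rw [← hσ, ValuationSubring.mem_comap]
    change _ ↔ τ₀.symm (τ₀ b) ∈ W₀
    rw [RingEquiv.symm_apply_apply]

end

/-- **ALG from the corrected leaves (route G).** -/
theorem algSS_of_leavesU (hBase : BaseLeaf) (hRoot : RootLeaf) (hSheets : SheetsLeafU)
    (hRed : RedLeafU) (hConst : ConstLeafU) (hCount : CountLeafU) (hCover : CoverLeafU) :
    AlgSSStatement := by
  intro R E F _ _ _ _ _ _ _ _ _ _ _ _ _ w hirr q m hq hqR hm hqm x hx hfin hconst Bf Bi hBf hBi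
    cf ci sf si τ τE τR hτE hτR hτx hfo hτf hτi
  have ctx : SSCtx w q m x Bf Bi τ τE τR :=
    ⟨hirr, hq, hqR, hm, hqm, hx, hfin, hconst, hBf, hBi, ⟨cf⟩, ⟨ci⟩, sf, si, hτE, hτR, hτx, hfo,
      hτf, hτi⟩
  have B := hBase w q m x Bf Bi τ τE τR ctx
  have Rt := hRoot w q m x Bf Bi τ τE τR ctx
  have hinjRE : Function.Injective (algebraMap R E) := IsFractionRing.injective R E
  have hinj : Function.Injective (algebraMap R F) := by
    rw [IsScalarTower.algebraMap_eq R E F]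
    exact (algebraMap E F).injective.comp hinjRE
  have : CharZero F := charZero_of_injective_algebraMap (algebraMap E F).injective
  have hxR : Transcendental R x := hx.restrictScalars hinjRE
  have hw : Prime w := hirr.prime
  have hτRF : ∀ r, τ (algebraMap R F r) = algebraMap R F (τR r) := by
    intro r
    rw [IsScalarTower.algebraMap_apply R E F, hτE, hτR, ← IsScalarTower.algebraMap_apply]
  have hdvd : ∀ r : R, w ∣ r ↔ ¬ IsUnit r := by
    intro r
    rw [← Ideal.mem_span_singleton, ← hirr.maximalIdeal_eq, IsLocalRing.mem_maximalIdeal,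
      mem_nonunits_iff]
  have hτw : ∀ r, w ∣ r ↔ w ∣ τR r := by
    intro r
    rw [hdvd, hdvd]
    exact not_congr (MulEquiv.isUnit_map (τR : R ≃* R)).symm
  have hwunit : ∃ c d : R, τR w = w * c ∧ c * d = 1 := by
    obtain ⟨c, hc⟩ := (hτw w).1 dvd_rfl
    have hirr' : Irreducible (τR w) := (MulEquiv.irreducible_iff (τR : R ≃* R)).2 hirr
    rw [hc] at hirr'
    rcases hirr'.isUnit_or_isUnit rfl with h | h
    · exact absurd h hirr.not_isUnit
    · obtain ⟨d, hd⟩ := h.exists_right_inv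
      exact ⟨c, d, hc, hd⟩
  have hW0 : algebraMap R F w ≠ 0 := by
    intro h0
    exact hirr.ne_zero (hinj (by rw [h0, map_zero]))
  intro f hf hdiv
  have hHor : HorDiv R m f := horDiv_of_divisibleDiv hdiv
  have hτf0 : τ f ≠ 0 := fun h0 => hf ((map_eq_zero_iff τ τ.injective).1 h0)
  have hg0 : τ f / f ≠ 0 := div_ne_zero hτf0 hf
  have hgHor : HorDiv R m (τ f / f) := (hHor.map τ τR hτRF).div hHor
  have hgSplit : ∀ V : ValuationSubring F, IsSheet w x V → SplitAtU m V (τ f / f) :=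
    fun V hV => splitAtU_tauSubOne w x m hm τ τR hτRF hW0 hwunit Rt.unit_pow V hV
      (fun c hc => (B.stable V hV c).2 hc) (B.discrete V hV) f hf
  have hcov := hCover w q m x Bf Bi τ τE τR ctx (τ f / f) hg0 hgHor hgSplit
  obtain ⟨z, hz⟩ := algGU w x m τ τR hinj hxR hw hm Rt.root hτx hτRF hτw B.stable B.exists_sheet
    (fun L _ _ _ _ h => hSheets w q m x Bf Bi τ τE τR ctx L h)
    (fun L _ _ _ _ h => hRed w q m x Bf Bi τ τE τR ctx L h)
    (fun L _ _ _ _ h => hConst w q m x Bf Bi τ τE τR ctx L h)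
    (fun L _ _ _ _ h => hCount w q m x Bf Bi τ τE τR ctx L h)
    (τ f / f) hg0 hcov
  have hz0 : z ≠ 0 := by
    rintro rfl
    rw [zero_pow hm.ne', zero_mul] at hz
    exact hg0 ((map_eq_zero_iff τ τ.injective).1 hz)
  refine ⟨z, hz0, ?_⟩
  rw [map_div₀] at hz
  field_simp at hz
  rw [hz]
  ring

end Fermat.Agent.A2.H12
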