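import Fermat.Agent.A2.H12.AlgLeaves

/-!
# Cell A2 — route G: leaf ROOT (helper12)

`rootLeaf : RootLeaf` — in the AlgSS context (`R` a henselian DVR with algebraically closed residue
field of characteristic `q`, `q ∤ m`): `R` contains a primitive `m`-th root of unity fixed by
`τR`, and every unit of `R` is an `m`-th power.
-/

set_option autoImplicit false

namespace Fermat.Agent.A2.H12

open Fermat.Agent.A2 Polynomial IsLocalRing

section Hensel

variable {R : Type} [CommRing R] [IsDomain R] [HenselianLocalRing R]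
  [IsAlgClosed (ResidueField R)]

/-- `m` is a unit of `R` when `q ∈ 𝔪`, `q` prime, `q ∤ m`. -/
theorem isUnit_natCast_of_not_dvd {q m : ℕ} (hq : q.Prime) (hqR : (q : R) ∈ maximalIdeal R)
    (hqm : ¬ q ∣ m) : IsUnit (m : R) := by
  by_contra hm
  have hmR : (m : R) ∈ maximalIdeal R := (mem_maximalIdeal _).2 hm
  have hcop : Nat.Coprime q m := (Nat.Prime.coprime_iff_not_dvd hq).2 hqm
  have h1 : ((Nat.gcd q m : ℕ) : ℤ) = q * Nat.gcdA q m + m * Nat.gcdB q m := Nat.gcd_eq_gcd_ab q m
  rw [hcop.gcd_eq_one] at h1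
  have h2 : (1 : R) = (q : R) * ((Nat.gcdA q m : ℤ) : R) + (m : R) * ((Nat.gcdB q m : ℤ) : R) := by
    have := congrArg (fun z : ℤ => (z : R)) h1
    simpa using this
  have h3 : (1 : R) ∈ maximalIdeal R := by
    rw [h2]
    exact Ideal.add_mem _ (Ideal.mul_mem_right _ _ hqR) (Ideal.mul_mem_right _ _ hmR)
  exact (Ideal.ne_top_iff_one _).1 (maximalIdeal.isMaximal R).ne_top h3

/-- Hensel's lemma for `X ^ m - c`, `c` a unit, `m` a unit. -/
theorem exists_pow_eq_of_hensel {m : ℕ} (hm : 0 < m) (hmunit : IsUnit (m : R)) (c : R)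
    (hc : IsUnit c) (a₀ : R) (ha₀ : a₀ ^ m - c ∈ maximalIdeal R) :
    ∃ a : R, a ^ m = c ∧ a - a₀ ∈ maximalIdeal R := by
  have ha₀unit : IsUnit a₀ := by
    by_contra h
    have h1 : a₀ ∈ maximalIdeal R := (mem_maximalIdeal _).2 h
    have h2 : a₀ ^ m ∈ maximalIdeal R := Ideal.pow_mem_of_mem _ h1 m hm
    have h3 : c ∈ maximalIdeal R := by
      have : c = a₀ ^ m - (a₀ ^ m - c) := by ring
      rw [this]
      exact Ideal.sub_mem _ h2 ha₀
    exact ((mem_maximalIdeal _).1 h3) hc
  obtain ⟨a, ha, haa⟩ := HenselianLocalRing.is_henselian (X ^ m - C c) (monic_X_pow_sub_C c hm.ne')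
    a₀ (by simpa using ha₀) (by
      simp only [derivative_sub, derivative_X_pow, derivative_C, sub_zero, eval_mul, eval_C,
        eval_pow, eval_X, eval_natCast]
      exact hmunit.mul (ha₀unit.pow _))
  refine ⟨a, ?_, haa⟩
  have : eval a (X ^ m - C c) = 0 := ha
  simpa [sub_eq_zero] using this

/-- Units of `R` are `m`-th powers. -/
theorem exists_pow_eq_of_isUnit {m : ℕ} (hm : 0 < m) (hmunit : IsUnit (m : R)) (c : R)
    (hc : IsUnit c) : ∃ c₀ : R, c = c₀ ^ m := by
  obtain ⟨z, hz⟩ := IsAlgClosed.exists_pow_nat_eq (residue R c) hm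
  obtain ⟨a₀, rfl⟩ := residue_surjective z
  have h1 : a₀ ^ m - c ∈ maximalIdeal R := by
    rw [← residue_eq_zero_iff, map_sub, map_pow, hz, sub_self]
  obtain ⟨a, ha, -⟩ := exists_pow_eq_of_hensel hm hmunit c hc a₀ h1
  exact ⟨a, ha.symm⟩

/-- A primitive `m`-th root of unity in `R` whose residue is primitive. -/
theorem exists_primitiveRoot_of_hensel {m : ℕ} (hm : 0 < m) (hmunit : IsUnit (m : R)) :
    ∃ ζ : R, IsPrimitiveRoot ζ m ∧ IsPrimitiveRoot (residue R ζ) m := by
  have hmk : (m : ResidueField R) ≠ 0 := by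
    have : (m : ResidueField R) = residue R (m : R) := by simp
    rw [this]
    exact (hmunit.map (residue R)).ne_zero
  haveI : NeZero (m : ResidueField R) := ⟨hmk⟩
  obtain ⟨ζ₀, hζ₀⟩ := HasEnoughRootsOfUnity.exists_primitiveRoot (ResidueField R) m
  obtain ⟨a₀, rfl⟩ := residue_surjective ζ₀
  have h1 : a₀ ^ m - 1 ∈ maximalIdeal R := by
    rw [← residue_eq_zero_iff, map_sub, map_pow, hζ₀.pow_eq_one, map_one, sub_self]
  obtain ⟨ζ, hζ, hζa⟩ := exists_pow_eq_of_hensel hm hmunit 1 isUnit_one a₀ h1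
  have hres : residue R ζ = residue R a₀ := by
    rw [← sub_eq_zero, ← map_sub, residue_eq_zero_iff]
    exact hζa
  refine ⟨ζ, ⟨hζ, ?_⟩, by rw [hres]; exact hζ₀⟩
  intro l hl
  apply hζ₀.dvd_of_pow_eq_one
  rw [← hres, ← map_pow, hl, map_one]

end Hensel

/-- **Leaf ROOT.** -/
theorem rootLeaf : RootLeaf := by
  intro R E F _ _ _ _ _ _ _ _ _ _ _ _ _ w q m x Bf Bi τ τE τR ctx
  have hmunit : IsUnit (m : R) := isUnit_natCast_of_not_dvd ctx.qprime ctx.qmem ctx.qm
  refine ⟨?_, fun c hc => exists_pow_eq_of_isUnit ctx.mpos hmunit c hc⟩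
  obtain ⟨ζ, hζ, hζres⟩ := exists_primitiveRoot_of_hensel (R := R) ctx.mpos hmunit
  refine ⟨ζ, hζ, ?_⟩
  -- `τR ≡ id` modulo the maximal ideal
  have hinjRE : Function.Injective (algebraMap R E) := IsFractionRing.injective R E
  have hinj : Function.Injective (algebraMap R F) := by
    rw [IsScalarTower.algebraMap_eq R E F]
    exact (algebraMap E F).injective.comp hinjRE
  have hxR : Transcendental R x := ctx.transc.restrictScalars hinjRE
  have hτRF : ∀ r, τ (algebraMap R F r) = algebraMap R F (τR r) := by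
    intro r
    rw [IsScalarTower.algebraMap_apply R E F, ctx.hτE, ctx.hτR, ← IsScalarTower.algebraMap_apply]
  have hcong : ∀ r : R, residue R (τR r) = residue R r := by
    intro r
    obtain ⟨c, hc, hcc⟩ := ctx.hτf (algebraMap R F r) (Bf.algebraMap_mem r)
    rw [hτRF, ← map_sub] at hcc
    have hdvd : w ∣ τR r - r :=
      Fermat.Agent.S18.H138.dvd_of_algebraMap_eq_mul hinj hxR w (τR r - r)
        (t := c) ((ctx.hBf c).1 hc) hcc
    rw [← sub_eq_zero, ← map_sub, residue_eq_zero_iff, ctx.irr.maximalIdeal_eq,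
      Ideal.mem_span_singleton]
    exact hdvd
  -- `τR ζ` is a power of `ζ` with the same residue
  have hpow : (τR ζ) ^ m = 1 := by rw [← map_pow, hζ.pow_eq_one, map_one]
  haveI : NeZero m := ⟨ctx.mpos.ne'⟩
  obtain ⟨i, hi, hiζ⟩ := hζ.eq_pow_of_pow_eq_one hpow
  by_cases hm1 : m = 1
  · subst hm1
    have : i = 0 := by omega
    subst this
    rw [pow_zero] at hiζ
    rw [← hiζ]
    have := hζ.pow_eq_one
    rw [pow_one] at this
    exact this.symm
  · have h1m : 1 < m := by
      have := ctx.mpos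
      omega
    have hres : residue R ζ ^ i = residue R ζ ^ 1 := by
      rw [pow_one, ← map_pow, hiζ, hcong]
    have := hζres.pow_inj hi h1m hres
    rw [← hiζ, this, pow_one]

end Fermat.Agent.A2.H12
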