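import Fermat.Agent.A2.H12.CountSpec
import Fermat.Agent.A2.H12.RootLeaf
import Fermat.Agent.A2.H652.RedCover

/-!
# Cell A2 — route G: leaf COUNT from PURITY (helper12)

`countLeafU_of_pure : SheetsLeafU → PureGLeaf → SurjLeaf → CountLeafU`.
-/

set_option autoImplicit false

namespace Fermat.Agent.A2.H12

open Fermat.Agent.A2
open Fermat.Agent.S18.H138 (chart)

section Core

variable {R : Type*} [CommRing R] {F : Type*} [Field F] [Algebra R F]
  {L : Type*} [Field L] [Algebra F L] [Algebra R L] [IsScalarTower R F L]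

/-- An `F`-automorphism of `L` fixing a set of field generators is the identity. -/
theorem algEquiv_eq_one_of_fixes {n : ℕ} (y : Fin n → L)
    (hgen : IntermediateField.adjoin F (Set.range y) = ⊤) (σ : L ≃ₐ[F] L)
    (h : ∀ i, σ (y i) = y i) : σ = 1 := by
  have key : ∀ z ∈ IntermediateField.adjoin F (Set.range y), σ z = z := by
    intro z hz
    induction hz using IntermediateField.adjoin_induction with
    | mem z hz =>
      obtain ⟨i, rfl⟩ := hz
      exact h i
    | algebraMap z => exact σ.commutes z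
    | add a b _ _ ha hb => rw [map_add, ha, hb]
    | inv a _ ha => rw [map_inv₀, ha]
    | mul a b _ _ ha hb => rw [map_mul, ha, hb]
  ext z
  exact key z (by rw [hgen]; exact IntermediateField.mem_top)

omit [IsScalarTower R F L] in
/-- **Inertia lemma.**  A deck transformation `σ` carrying a sheet `W` through the point `𝔫` to a
sheet `W'` through `𝔫` is trivial, if the Kummer generators are pure at `𝔫` and `W` maps onto
its component. -/
theorem deck_eq_one_of_pure (m : ℕ) (hm : 0 < m) (ζ : R)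
    (hζ : IsPrimitiveRoot (algebraMap R L ζ) m)
    (hζu : ∀ j : ℕ, ζ ^ j ≠ 1 → IsUnit (ζ ^ j - 1))
    (B : Subalgebra R F) (BL : Subalgebra R L)
    (hBL : ∀ a ∈ B, algebraMap F L a ∈ BL)
    (hroot : ∀ z : L, ∀ a ∈ B, z ^ m = algebraMap F L a → z ∈ BL)
    (𝔫 : Ideal BL) (h𝔫 : 𝔫.IsPrime)
    (W W' : ValuationSubring L) (σ : L ≃ₐ[F] L) (hσBL : ∀ c ∈ BL, σ c ∈ BL)
    (hσ : ∀ b, b ∈ W ↔ σ b ∈ W')
    (hW : ∀ c : BL, (c : L) ∈ W.nonunits → c ∈ 𝔫)
    (hW' : ∀ c : BL, (c : L) ∈ W'.nonunits → c ∈ 𝔫)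
    (hsurj : ∀ c ∈ BL, ∃ a ∈ B, c - algebraMap F L a ∈ W.nonunits)
    {n : ℕ} (y : Fin n → L) (g : Fin n → F) (hy : ∀ i, y i ^ m = algebraMap F L (g i))
    (hgen : IntermediateField.adjoin F (Set.range y) = ⊤)
    (hpure : ∀ i, ∃ d : F, d ≠ 0 ∧ ∃ a b : B,
      (⟨algebraMap F L a, hBL a a.2⟩ : BL) ∉ 𝔫 ∧ (⟨algebraMap F L b, hBL b b.2⟩ : BL) ∉ 𝔫 ∧
      g i * d ^ m * (b : F) = (a : F)) :
    σ = 1 := by
  have hσnu : ∀ b, b ∈ W.nonunits ↔ σ b ∈ W'.nonunits :=
    nonunits_iff_of_mem_iff (σ : L ≃+* L) W W' hσ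
  have keyA : ∀ c : BL, (⟨σ c, hσBL c c.2⟩ : BL) - c ∈ 𝔫 := by
    intro c
    obtain ⟨a, ha, hca⟩ := hsurj c c.2
    have h1 : (c - ⟨algebraMap F L a, hBL a ha⟩ : BL) ∈ 𝔫 := hW _ hca
    have h2 : ((⟨σ c, hσBL c c.2⟩ : BL) - ⟨algebraMap F L a, hBL a ha⟩ : BL) ∈ 𝔫 := by
      apply hW'
      change σ c - algebraMap F L a ∈ W'.nonunits
      have := (hσnu _).1 hca
      rwa [map_sub, σ.commutes] at this
    have h3 : (⟨σ c, hσBL c c.2⟩ : BL) - c =
        ((⟨σ c, hσBL c c.2⟩ : BL) - ⟨algebraMap F L a, hBL a ha⟩) -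
          (c - ⟨algebraMap F L a, hBL a ha⟩) := by ring
    rw [h3]
    exact 𝔫.sub_mem h2 h1
  apply algEquiv_eq_one_of_fixes y hgen
  intro i
  obtain ⟨d, -, a, b, ha𝔫, hb𝔫, hgab⟩ := hpure i
  obtain ⟨k, rfl⟩ := Nat.exists_eq_succ_of_ne_zero hm.ne'
  simp only [Nat.succ_eq_add_one] at hy hgab hζ hroot
  set t : L := y i * algebraMap F L (d * b) with ht
  have htm : t ^ (k + 1) = algebraMap F L (a : F) * algebraMap F L (b : F) ^ k := by
    rw [ht, mul_pow, hy, ← map_pow, ← map_pow, ← map_mul, ← map_mul, ← hgab]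
    congr 1
    ring
  have htBL : t ∈ BL := by
    refine hroot t ((a * b ^ k : B) : F) (SetLike.coe_mem _) ?_
    rw [htm, Subalgebra.coe_mul, Subalgebra.coe_pow, map_mul, map_pow]
  have htn : (⟨t, htBL⟩ : BL) ∉ 𝔫 := by
    intro h
    have h1 : (⟨t, htBL⟩ : BL) ^ (k + 1) ∈ 𝔫 := Ideal.pow_mem_of_mem _ h _ (Nat.succ_pos k)
    have h2 : (⟨t, htBL⟩ : BL) ^ (k + 1) =
        ⟨algebraMap F L a, hBL a a.2⟩ * ⟨algebraMap F L b, hBL b b.2⟩ ^ k := by
      apply Subtype.ext
      rw [Subalgebra.coe_pow, Subalgebra.coe_mul, Subalgebra.coe_pow]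
      exact htm
    rw [h2] at h1
    rcases h𝔫.mem_or_mem h1 with h3 | h3
    · exact ha𝔫 h3
    · exact hb𝔫 (h𝔫.mem_of_pow_mem _ h3)
  have hy0 : y i ≠ 0 := by
    intro h0
    apply htn
    have h1 : (⟨t, htBL⟩ : BL) = 0 := by
      apply Subtype.ext
      change t = 0
      rw [ht, h0, zero_mul]
    rw [h1]
    exact 𝔫.zero_mem
  have hroot1 : (σ (y i) / y i) ^ (k + 1) = 1 := by
    rw [div_pow, ← map_pow, hy, σ.commutes, ← hy, div_self (pow_ne_zero _ hy0)]
  obtain ⟨j, -, hj⟩ := hζ.eq_pow_of_pow_eq_one hroot1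
  have hσy : σ (y i) = algebraMap R L (ζ ^ j) * y i := by
    rw [map_pow, hj]
    field_simp
  by_cases h1 : ζ ^ j = 1
  · rw [hσy, h1, map_one, one_mul]
  · exfalso
    have hu := hζu j h1
    have hσt : σ t = algebraMap R L (ζ ^ j) * t := by
      rw [ht, map_mul, σ.commutes, hσy]
      ring
    have h2 := keyA ⟨t, htBL⟩
    have h3 : (⟨σ t, hσBL t htBL⟩ : BL) - ⟨t, htBL⟩ =
        algebraMap R BL (ζ ^ j - 1) * ⟨t, htBL⟩ := by
      apply Subtype.ext
      push_cast
      change σ t - t = (algebraMap R L ζ ^ j - 1) * t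
      rw [hσt, map_pow]
      ring
    rw [h3] at h2
    rcases h𝔫.mem_or_mem h2 with h4 | h4
    · exact h𝔫.ne_top (Ideal.eq_top_of_isUnit_mem _ h4 (hu.map (algebraMap R BL)))
    · exact htn h4

end Core

section Chart

variable {R : Type} [CommRing R] {F : Type} [Field F] [Algebra R F]
  {L : Type} [Field L] [Algebra F L] [Algebra R L] [IsScalarTower R F L]

/-- The image of the chart of `F` lies in the chart of `L`. -/
theorem algebraMap_mem_chart_cover (t : F) {a : F} (ha : a ∈ chart R ({t} : Set F)) :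
    algebraMap F L a ∈ chart R ({algebraMap F L t} : Set L) := by
  rw [Fermat.Agent.S18.H138.mem_chart] at ha ⊢
  have h2 : IsIntegral (Algebra.adjoin R ({t} : Set F)) (algebraMap F L a) :=
    ha.map (IsScalarTower.toAlgHom (Algebra.adjoin R ({t} : Set F)) F L)
  have h3 := Fermat.Agent.A2.H652.isIntegral_adjoin_image_of_isIntegral_adjoin ({t} : Set F) h2
  rwa [Set.image_singleton] at h3

/-- **COUNT for one chart.** -/
theorem countAt_of_pure_chart (w : R) (x : F) (m : ℕ) (hm : 0 < m) (ζ : R)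
    (hζ : IsPrimitiveRoot (algebraMap R L ζ) m)
    (hζu : ∀ j : ℕ, ζ ^ j ≠ 1 → IsUnit (ζ ^ j - 1))
    (S : SheetsConclusion L w x)
    (t : F) (B : Subalgebra R F)
    (hB : ∀ f : F, f ∈ B ↔ IsIntegral (Algebra.adjoin R ({t} : Set F)) f)
    {n : ℕ} (y : Fin n → L) (g : Fin n → F) (hy : ∀ i, y i ^ m = algebraMap F L (g i))
    (hgen : IntermediateField.adjoin F (Set.range y) = ⊤)
    (hsurj : ∀ W : ValuationSubring L, IsSheet w (algebraMap F L x) W →
      ∀ c ∈ chart R ({algebraMap F L t} : Set L), ∃ a ∈ B, c - algebraMap F L a ∈ W.nonunits)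
    (hpure : ∀ i, ∀ n : Ideal B, n.IsMaximal → algebraMap R B w ∈ n →
      ∃ d : F, d ≠ 0 ∧ Alg.LocUnit B n (g i * d ^ m)) :
    CountAt L w x ({algebraMap F L t} : Set L) := by
  intro 𝔫 h𝔫 W W' hWs hW's hcol hW hW'
  obtain ⟨σ, hσ⟩ := S.trans W W' hWs hW's hcol
  have hBL : ∀ a ∈ B, algebraMap F L a ∈ chart R ({algebraMap F L t} : Set L) :=
    fun a ha => algebraMap_mem_chart_cover t ((hB a).1 ha)
  have hroot : ∀ z : L, ∀ a ∈ B, z ^ m = algebraMap F L a →
      z ∈ chart R ({algebraMap F L t} : Set L) := by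
    intro z a ha hz
    rw [Fermat.Agent.S18.H138.mem_chart]
    refine IsIntegral.of_pow hm ?_
    rw [hz]
    exact hBL a ha
  have hσBL : ∀ c ∈ chart R ({algebraMap F L t} : Set L),
      σ c ∈ chart R ({algebraMap F L t} : Set L) := by
    intro c hc
    refine chart_map_mem ((σ : L ≃+* L) : L →+* L) ?_ ?_ hc
    · intro r
      refine ⟨r, ?_⟩
      change σ (algebraMap R L r) = _
      rw [IsScalarTower.algebraMap_apply R F L, σ.commutes]
    · intro t' ht'
      rw [Set.mem_singleton_iff] at ht'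
      subst ht'
      change σ (algebraMap F L t) ∈ _
      rw [σ.commutes]
      exact Algebra.subset_adjoin rfl
  -- the inclusion of the charts
  let ι : B →+* chart R ({algebraMap F L t} : Set L) :=
    { toFun := fun a => ⟨algebraMap F L a, hBL a a.2⟩
      map_one' := Subtype.ext (map_one _)
      map_mul' := fun a b => Subtype.ext (map_mul _ _ _)
      map_zero' := Subtype.ext (map_zero _)
      map_add' := fun a b => Subtype.ext (map_add _ _ _) }
  have hAB : Algebra.adjoin R ({t} : Set F) ≤ B := fun z hz =>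
    (hB z).2 (isIntegral_algebraMap (R := Algebra.adjoin R ({t} : Set F)) (x := ⟨z, hz⟩))
  have hι : ι.IsIntegral := by
    intro c
    have hc : (c : L) ∈ chart R (algebraMap F L '' ({t} : Set F)) := by
      rw [Set.image_singleton]
      exact c.2
    obtain ⟨p, hp, hpc⟩ :=
      Fermat.Agent.A2.H652.isIntegral_adjoin_of_isIntegral_adjoin_image ({t} : Set F)
        (Fermat.Agent.S18.H138.mem_chart.1 hc)
    refine ⟨p.map (Subalgebra.inclusion hAB).toRingHom, hp.map _, ?_⟩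
    apply Subtype.ext
    rw [Polynomial.eval₂_map]
    have h1 := Polynomial.hom_eval₂ p (ι.comp (Subalgebra.inclusion hAB).toRingHom)
      (chart R ({algebraMap F L t} : Set L)).val.toRingHom c
    change (chart R ({algebraMap F L t} : Set L)).val.toRingHom _ = _
    rw [h1]
    exact hpc
  have hnmax : (𝔫.comap ι).IsMaximal :=
    Ideal.isMaximal_comap_of_isIntegral_of_isMaximal' ι hι 𝔫
  have hwn : algebraMap R B w ∈ 𝔫.comap ι := by
    rw [Ideal.mem_comap]
    apply hW
    change algebraMap F L (algebraMap R F w) ∈ W.nonunits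
    rw [← IsScalarTower.algebraMap_apply R F L]
    exact hWs.2.2.1
  have hσ1 : σ = 1 := by
    refine deck_eq_one_of_pure m hm ζ hζ hζu B (chart R ({algebraMap F L t} : Set L)) hBL hroot
      𝔫 h𝔫.isPrime W W' σ hσBL hσ hW hW' (hsurj W hWs) y g hy hgen ?_
    intro i
    obtain ⟨d, hd, a, b, ha, hb, hab⟩ := hpure i (𝔫.comap ι) hnmax hwn
    exact ⟨d, hd, a, b, ha, hb, hab⟩
  ext b
  rw [hσ b, hσ1]
  rfl

end Chart

/-- **COUNT from purity.** -/
theorem countLeafU_of_pure (hSheets : SheetsLeafU) (hPure : PureGLeaf) (hSurj : SurjLeaf) :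
    CountLeafU := by
  intro R E F _ _ _ _ _ _ _ _ _ _ _ _ _ w q m x Bf Bi τ τE τR ctx L _ _ _ _ hK
  have S := hSheets w q m x Bf Bi τ τE τR ctx L hK
  obtain ⟨n, y, g, hg0, hy, hgen, hhor, hsplit⟩ := hK.gen
  have hmunit : IsUnit (m : R) := isUnit_natCast_of_not_dvd ctx.qprime ctx.qmem ctx.qm
  obtain ⟨ζ, hζ, hζres⟩ := exists_primitiveRoot_of_hensel (R := R) ctx.mpos hmunit
  have hinjRE : Function.Injective (algebraMap R E) := IsFractionRing.injective R E
  have hinjRF : Function.Injective (algebraMap R F) := by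
    rw [IsScalarTower.algebraMap_eq R E F]
    exact (algebraMap E F).injective.comp hinjRE
  have hinjRL : Function.Injective (algebraMap R L) := by
    rw [IsScalarTower.algebraMap_eq R F L]
    exact (algebraMap F L).injective.comp hinjRF
  have hζL : IsPrimitiveRoot (algebraMap R L ζ) m := hζ.map_of_injective hinjRL
  have hζu : ∀ j : ℕ, ζ ^ j ≠ 1 → IsUnit (ζ ^ j - 1) := by
    intro j hj
    by_contra hnu
    have h1 : ζ ^ j - 1 ∈ IsLocalRing.maximalIdeal R := (IsLocalRing.mem_maximalIdeal _).2 hnu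
    have h2 : IsLocalRing.residue R ζ ^ j = 1 := by
      have := (IsLocalRing.residue_eq_zero_iff _).2 h1
      rwa [map_sub, map_pow, map_one, sub_eq_zero] at this
    obtain ⟨k, rfl⟩ := hζres.dvd_of_pow_eq_one j h2
    exact hj (by rw [pow_mul, hζ.pow_eq_one, one_pow])
  have hsurj := hSurj w q m x Bf Bi τ τE τR ctx L hK S
  have hpure := fun i => hPure w q m x Bf Bi τ τE τR ctx (g i) (hg0 i) (hhor i) (hsplit i)
  refine ⟨?_, ?_⟩
  · exact countAt_of_pure_chart w x m ctx.mpos ζ hζL hζu S x Bf ctx.hBf y g hy hgen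
      (fun W hW => (hsurj W hW).1) (fun i => (hpure i).1)
  · have h := countAt_of_pure_chart w x m ctx.mpos ζ hζL hζu S x⁻¹ Bi ctx.hBi y g hy hgen
      (fun W hW => by
        have := (hsurj W hW).2
        rwa [← map_inv₀] at this) (fun i => (hpure i).2)
    rwa [map_inv₀] at h

end Fermat.Agent.A2.H12
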