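import Fermat.Agent.A2.H12.AlgLeavesU
import Fermat.Agent.A2.Alg.Spec

/-!
# Cell A2 — route G: leaf COUNT through PURITY (helper12)

Definitions only.  The leaf `CountLeafU` (`H12/AlgLeavesU.lean`) is reduced in
`H12/CountPur.lean` to two leaves which are corollaries of work already on main:

* `PureGLeaf` : purity for split Kummer generators at the closed points of the special fibre of
  both charts (`g d ^ m` is a unit of `B_n`).  Source: the purity leaves `P-S`, `P-N` of route S
  (`Alg.H34.PuritySmoothLeaf`, `Alg.H609.purityNodeLeaf`) applied to `g / h ^ m`, where `h` is a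
  unit at both sheets with the residues of the `m`-th roots of `g` (two-point approximation
  `h = (a₁ e₁ + a₂ e₂) / (b₁ e₁ + b₂ e₂)`, `e₁ ∈ p₂ ∖ p₁`, `e₂ ∈ p₁ ∖ p₂`).
* `SurjLeaf` : every sheet `W` of a Kummer-split cover `L` maps isomorphically to its component:
  `chart_L = chart_F + 𝔪_W ∩ chart_L`.  Source: `SheetsConclusion.resdeg`, the sheets of `F` are
  the localisations of the chart at `p₁`, `p₂`, and `SSChart.normal₁/₂`.

`countLeafU_of_pure : SheetsLeafU → PureGLeaf → SurjLeaf → CountLeafU` (inertia argument: a deck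
transformation `σ` moving a sheet through a closed point `𝔫` to another sheet through `𝔫` acts
trivially on `chart_L / 𝔫`, hence fixes the unit Kummer generators `y d b`).
-/

set_option autoImplicit false

namespace Fermat.Agent.A2.H12

open Fermat.Agent.A2
open Fermat.Agent.S18.H138 (chart)

/-- Leaf **PUREG**: purity at the closed points of the special fibre for split Kummer
generators. -/
def PureGLeaf : Prop :=
  ∀ {R E F : Type} [CommRing R] [IsDomain R] [IsDiscreteValuationRing R]
    [HenselianLocalRing R] [IsAlgClosed (IsLocalRing.ResidueField R)]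
    [Field E] [CharZero E] [Algebra R E] [IsFractionRing R E]
    [Field F] [Algebra E F] [Algebra R F] [IsScalarTower R E F]
    (w : R) (q m : ℕ) (x : F) (Bf Bi : Subalgebra R F)
    (τ : F ≃+* F) (τE : E ≃+* E) (τR : R ≃+* R),
    SSCtx w q m x Bf Bi τ τE τR →
    ∀ g : F, g ≠ 0 → HorDiv R m g →
      (∀ V : ValuationSubring F, IsSheet w x V → SplitAtU m V g) →
      (∀ n : Ideal Bf, n.IsMaximal → algebraMap R Bf w ∈ n →
        ∃ d : F, d ≠ 0 ∧ Alg.LocUnit Bf n (g * d ^ m)) ∧
      (∀ n : Ideal Bi, n.IsMaximal → algebraMap R Bi w ∈ n →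
        ∃ d : F, d ≠ 0 ∧ Alg.LocUnit Bi n (g * d ^ m))

/-- Leaf **SURJ**: a sheet of a Kummer-split cover maps isomorphically onto its component. -/
def SurjLeaf : Prop :=
  ∀ {R E F : Type} [CommRing R] [IsDomain R] [IsDiscreteValuationRing R]
    [HenselianLocalRing R] [IsAlgClosed (IsLocalRing.ResidueField R)]
    [Field E] [CharZero E] [Algebra R E] [IsFractionRing R E]
    [Field F] [Algebra E F] [Algebra R F] [IsScalarTower R E F]
    (w : R) (q m : ℕ) (x : F) (Bf Bi : Subalgebra R F)
    (τ : F ≃+* F) (τE : E ≃+* E) (τR : R ≃+* R),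
    SSCtx w q m x Bf Bi τ τE τR →
    ∀ (L : Type) [Field L] [Algebra F L] [Algebra R L] [IsScalarTower R F L],
      IsKummerSplitU L w x m → SheetsConclusion L w x →
      ∀ W : ValuationSubring L, IsSheet w (algebraMap F L x) W →
        (∀ c ∈ chart R ({algebraMap F L x} : Set L),
          ∃ a ∈ Bf, c - algebraMap F L a ∈ W.nonunits) ∧
        (∀ c ∈ chart R ({(algebraMap F L x)⁻¹} : Set L),
          ∃ a ∈ Bi, c - algebraMap F L a ∈ W.nonunits)

end Fermat.Agent.A2.H12
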